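import Fermat.Agent.LT.T7.H193.KillSpec

/-!
# Row LT, tower T7, node T7.L2.1, leaf `T7.L2.1.K02` (`RconvTorAvgC`), helper622

OFF-MAIN.  Spec: `LT/T7/H193/KillSpec.lean` (helper193, sha256 2cb0a205), byte-identical copy
with its closure (`ProjSpec.lean` 977a85e3, `T7/Level2.lean`, `T5/Spec.lean`, ...).

`rconvTorAvgC622 K : H193.RconvTorAvgC K`: `R(φ) (P_∞ e) = R(φ) e` for `φ` absorbing the
positive scalars.

Proof: `R(φ)(P_∞ e)(x) = c ∫_y ∫_{t ∈ D} φ(y) e(x y a(t)) dt dy` with `c = vol(D)⁻¹`; the
integrand is continuous and bounded, and it vanishes for `y` outside the compact support `K₀` of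
`φ`; Fubini for the FINITE measures `μ|K₀` and `vol|D`; the inner integral over `y` is
`R(φ) (e(· a(t))) (x) = R(φ) e (x)` (`AbsorbsPos`, `z = a t`); `c · vol(D) = 1`.
(`T1.T1Out` is not used.)
-/

set_option autoImplicit false

open IsDedekindDomain NumberField MeasureTheory
open scoped ComplexConjugate

noncomputable section

namespace Fermat.Agent.LT.T7.H622

open Fermat.Agent.LT.H556 Fermat.Agent.LT.H556.A0 Fermat.Agent.LT Fermat.Agent.LT.T7.H193

attribute [local instance] Fermat.Agent.LT.T5.instMeasurableSpaceG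

/-- **LEAF KILL.2 = RCONV-TOR-AVG.** -/
theorem rconvTorAvgC622 (K : Type) [Field K] [NumberField K] : RconvTorAvgC K := by
  intro _ R hR 𝔑₀ a D hD φ hφc hφs hA e he x
  have hB : BorelSpace (G K) := ⟨rfl⟩
  have hhaar : R.μ.IsHaarMeasure := hR.frame.haar
  -- the constant
  have hDfin : volume D < ⊤ := hD.bdd.measure_lt_top
  have hDpos : 0 < (volume D).toReal := ENNReal.toReal_pos hD.pos.ne' hDfin.ne
  -- the compact support
  have hK₀c : IsCompact (tsupport φ) := hφs
  have hμK₀ : R.μ (tsupport φ) < ⊤ := hK₀c.measure_lt_top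
  have hfin1 : IsFiniteMeasure (R.μ.restrict (tsupport φ)) :=
    ⟨by rw [Measure.restrict_apply_univ]; exact hμK₀⟩
  have hfin2 : IsFiniteMeasure ((volume : Measure (InfinitePlace K → ℝ)).restrict D) :=
    ⟨by rw [Measure.restrict_apply_univ]; exact hDfin⟩
  -- the integrand
  have hFc : Continuous (Function.uncurry fun (y : G K) (t : InfinitePlace K → ℝ) =>
      φ y * e (x * y * a t)) := by
    have h1 : Continuous fun p : G K × (InfinitePlace K → ℝ) => φ p.1 :=
      hφc.comp continuous_fst
    have h2 : Continuous fun p : G K × (InfinitePlace K → ℝ) => e (x * p.1 * a p.2) :=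
      he.cont.comp ((continuous_const.mul continuous_fst).mul (hD.cont.comp continuous_snd))
    exact h1.mul h2
  obtain ⟨Ce, hCe⟩ := he.bdd
  obtain ⟨Cφ, hCφ⟩ := hφc.bounded_above_of_compact_support hφs
  have hFint : Integrable (Function.uncurry fun (y : G K) (t : InfinitePlace K → ℝ) =>
      φ y * e (x * y * a t))
      ((R.μ.restrict (tsupport φ)).prod ((volume : Measure (InfinitePlace K → ℝ)).restrict D)) := by
    refine Integrable.of_bound hFc.aestronglyMeasurable (Cφ * Ce)
      (Filter.Eventually.of_forall fun p => ?_)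
    show ‖φ p.1 * e (x * p.1 * a p.2)‖ ≤ Cφ * Ce
    rw [norm_mul]
    exact mul_le_mul (hCφ _) (hCe _) (norm_nonneg _) ((norm_nonneg _).trans (hCφ p.1))
  have hswap := integral_integral_swap hFint
  -- vanishing outside the support
  have hvan : ∀ y : G K, y ∉ tsupport φ → φ y = 0 := fun y hy => image_eq_zero_of_notMem_tsupport hy
  -- the inner integral over `y`
  have hinner : ∀ t : InfinitePlace K → ℝ,
      ∫ y in tsupport φ, φ y * e (x * y * a t) ∂(R.μ) = T5.Rconv R.μ φ e x := by
    intro t
    rw [setIntegral_eq_integral_of_forall_compl_eq_zero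
      (fun y hy => by rw [hvan y hy, zero_mul])]
    exact hA (a t) (isPosInf_of_torusData193 hD t) e he x
  -- the chain
  have h1 : T5.Rconv R.μ φ (torAvg a D e) x
      = (((volume D).toReal : ℝ) : ℂ)⁻¹ *
        ∫ y, (∫ t in D, φ y * e (x * y * a t)) ∂(R.μ) := by
    unfold T5.Rconv torAvg
    rw [← integral_const_mul]
    refine integral_congr_ae (Filter.Eventually.of_forall fun y => ?_)
    show φ y * ((((volume D).toReal : ℝ) : ℂ)⁻¹ * ∫ t in D, e (x * y * a t))
      = (((volume D).toReal : ℝ) : ℂ)⁻¹ * ∫ t in D, φ y * e (x * y * a t)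
    rw [integral_const_mul]
    ring
  have h2 : ∫ y, (∫ t in D, φ y * e (x * y * a t)) ∂(R.μ)
      = ∫ y in tsupport φ, (∫ t in D, φ y * e (x * y * a t)) ∂(R.μ) := by
    rw [setIntegral_eq_integral_of_forall_compl_eq_zero]
    intro y hy
    simp only [hvan y hy, zero_mul, integral_zero]
  rw [h1, h2, hswap]
  simp only [hinner]
  rw [setIntegral_const]
  have hreal : (volume : Measure (InfinitePlace K → ℝ)).real D = (volume D).toReal := rfl
  rw [hreal, Complex.real_smul, ← mul_assoc, inv_mul_cancel₀, one_mul]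
  exact_mod_cast hDpos.ne'

end Fermat.Agent.LT.T7.H622
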